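import Fermat.Agent.LevelLowering.Avoid.Assembly.Level
import Fermat.Agent.LevelLowering.Avoid.TaylorWiles
import Fermat.Agent.TWLocal.Conditions

/-!
# Ihara avoidance: a residual system at level `B ∏E` occurs at level `B`

The deformation rings at Taylor–Wiles primes act on the modules of the levels, which therefore
form a tower; such a tower contradicts the absence of the system at level `B`.
-/

set_option autoImplicit false

noncomputable section

open IsLocalRing Polynomial Module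
open Fermat.Agent.TangentBound Fermat.Agent.TWAssembly
open Fermat.Agent.GaloisBasics (Qbar GalQ)

namespace Fermat.Agent.LevelLowering.Avoid

/-- The statements about one level. -/
def LevelTheorems : Prop :=
  ∀ (O : Type) [CommRing O] [IsDomain O] [IsDiscreteValuationRing O]
    [IsAdicComplete (maximalIdeal O) O] (p : ℕ) (X : AvoidSetup p O) (r : ℕ) (T : X.TWTuple r),
    T.FreeLevel ∧ T.HeckeLevel ∧ T.FormAtPoint ∧ T.TrivialPoint ∧
      ∀ (ρbar : ResidualGaloisRep (ResidueField O))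
        (𝒟 : ∀ ⦃A : Type⦄ [CommRing A] [IsLocalRing A] [Algebra O A], GaloisRepAdic A → Prop)
        (DQ : GaloisRep.DeformationRingData O ρbar 𝒟), T.GaloisLevel ρbar DQ

variable {O : Type} [CommRing O] [IsDomain O] [IsDiscreteValuationRing O]
  [IsAdicComplete (maximalIdeal O) O]

namespace AvoidSetup

variable {p : ℕ} {X : AvoidSetup p O}

/-- The primes of a tuple. -/
abbrev TWTuple.primeSet {r : ℕ} (T : X.TWTuple r) : Finset ℕ :=
  Finset.univ.image fun j => (T.q j : ℕ)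

/-- **Ihara avoidance.** The system occurs at level `B`. -/
theorem false_of_setup [Fact p.Prime] [CharZero O] [Finite (ResidueField O)]
    (hlev : LevelTheorems) (h34 : Lifting.UnipotentAtSemistable)
    (h35 : ConductorLevel.NewformSteinberg) (h36 : ConductorLevel.NewformCarayol)
    (hW : X.Witness) (hbase : Nontrivial X.BaseSpace) (hbot : ¬ Nontrivial X.BottomSpace)
    {v₀ : ℕ} (hv₀ : 1 ≤ v₀) {ζ : O} (hζ : IsPrimitiveRoot ζ (p ^ v₀))
    (hv : ∀ q ∈ X.E, (q - 1).factorization p ≤ v₀)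
    (ρbar : ResidualGaloisRep (ResidueField O)) (hρ : X.IsResidual ρbar)
    (hdetbar : (GaloisRepAdic.ofResidualGaloisRep ρbar).DetIsCyclotomic p)
    (hsplit : ∀ σ : GQ, ∃ α β : ResidueField O,
      LinearMap.charpoly (ρbar.ρ σ) = (Polynomial.X - C α) * (Polynomial.X - C β))
    (b : Basis (Fin 2) (ResidueField O) ρbar.V) (hTW : TWElementProp (rbOf ρbar b) p)
    (hEI : ∀ q ∈ X.E, ∀ P : ValuationSubring Qbar, P.LiesOverPrime q →
      ∀ σ ∈ P.inertiaSubgroupIn ℚ, rbOf ρbar b σ = 1)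
    (hEscal : ∀ q ∈ X.E, ∀ P : ValuationSubring Qbar, P.LiesOverPrime q →
      ∀ σ ∈ P.decompositionSubgroup ℚ, ∃ x : ResidueField O,
        rbOf ρbar b σ = x • (1 : Mat2 (ResidueField O)))
    (S Smin : Finset ℕ) (hpS : p ∈ S) (hBS : X.B.primeFactors ⊆ S) (hES : X.E ⊆ S)
    (hESmin : ∀ q ∈ X.E, q ∉ Smin)
    (C' : Finset ℕ → ∀ ⦃A : Type⦄ [CommRing A] [IsLocalRing A] [Algebra O A],
      GaloisRepAdic A → Prop)
    (hdet : ∀ (T : Finset ℕ) (A : Type) [CommRing A] [IsLocalRing A] [Algebra O A]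
      (ρ : GaloisRepAdic A), C' T ρ → ρ.DetIsCyclotomic p)
    (hunr : ∀ (T : Finset ℕ) (A : Type) [CommRing A] [IsLocalRing A] [Algebra O A]
      (ρ : GaloisRepAdic A), C' T ρ → ∀ q : ℕ, q.Prime → q ∉ T → ρ.IsUnramifiedAt q)
    (hbc : ∀ (T : Finset ℕ) (A B : Type) [CommRing A] [IsLocalRing A] [Algebra O A]
      [CommRing B] [IsLocalRing B] [Algebra O B] (φ : A →ₐ[O] B)
      (hφ : IsLocalHom (φ : A →+* B)) (ρ : GaloisRepAdic A), Function.Surjective φ → C' T ρ →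
        C' T (ρ.baseChangeAlong (φ : A →+* B) hφ))
    (L : (q : ℕ) → (P : ValuationSubring (AlgebraicClosure ℚ)) →
      Submodule (ResidueField O) (P.decompositionSubgroup ℚ → Mat2 (ResidueField O)))
    (hmem : ∀ (T : Finset ℕ) (DQ : GaloisRep.DeformationRingData O ρbar (fun _A _ _ _ ρ =>
          C' T ρ ∧ ∀ q ∈ Smin, q.Prime → q ≠ p → ρ.IsUnipotentOnInertiaAt q))
        (V : (Mat2 (ResidueField O))ˣ),
        (∀ σ, (V : Mat2 (ResidueField O)) * barMat DQ σ = rbOf ρbar b σ * V) →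
        ∀ d, ∀ q ∈ Smin, ∀ P : ValuationSubring (AlgebraicClosure ℚ), P.LiesOverPrime q →
          resPlace P (conjMap V (tangentCocycle DQ d)) ∈ L q P)
    (hbound : SlackBoundProp (rbOf ρbar b) p S Smin X.E L)
    (hcond : ∀ {r : ℕ} (T : X.TWTuple r), (∀ j, (T.q j : ℕ) ∉ S) →
      T.DatumCond ρbar (fun _A _ _ _ ρ => C' (Smin ∪ X.E ∪ T.primeSet) ρ ∧
        ∀ q ∈ Smin, q.Prime → q ≠ p → ρ.IsUnipotentOnInertiaAt q))
    (hring : ∀ {r : ℕ} (T : X.TWTuple r), (∀ j, (T.q j : ℕ) ∉ S) →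
      ∀ (θ : CuspForm.heckeAlgebra T.twLevel 2 (↑T.badPrimes : Set ℕ) →+* ResidueField O)
        (H : CuspForm.HeckeGaloisRepDatum T.twLevel (↑T.badPrimes : Set ℕ) O θ
          (CuspForm.heckeLocal T.twLevel (↑T.badPrimes : Set ℕ) O θ)),
        H.ρ.residual.IsEquiv (ρbar.baseChangeAlong (ResidueField.map
          (algebraMap O (CuspForm.heckeLocal T.twLevel (↑T.badPrimes : Set ℕ) O θ)))) →
        Nonempty (GaloisRep.DeformationRingData O ρbar (fun _A _ _ _ ρ =>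
          C' (Smin ∪ X.E ∪ T.primeSet) ρ ∧
            ∀ q ∈ Smin, q.Prime → q ≠ p → ρ.IsUnipotentOnInertiaAt q))) : False := by
  classical
  have hp : p.Prime := Fact.out
  have hp2 := X.ne_two
  have h2 : IsUnit (2 : O) := isUnit_two_of_mem hp hp2 X.p_mem
  have hpk : (p : ResidueField O) = 0 := by
    rw [← map_natCast (residue O), residue_eq_zero_iff]; exact X.p_mem
  have hE : ∀ q ∈ X.E, q.Prime ∧ q ≠ p ∧ p ∣ q - 1 ∧ (q - 1).factorization p ≤ v₀ := by
    intro q hq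
    obtain ⟨hq', h1, -⟩ := X.mem_E q hq
    refine ⟨hq', fun h => ?_, h1, hv q hq⟩
    subst h
    have := Nat.le_of_dvd (by have := hq'.two_le; omega) h1
    have := hq'.two_le
    omega
  have hrbc : ∃ F : IntermediateField ℚ (AlgebraicClosure ℚ), FiniteDimensional ℚ F ∧
      ∀ σ ∈ F.fixingSubgroup, rbOf ρbar b σ = 1 := by
    obtain ⟨F, hF, hF1⟩ := TWLocal.exists_level_rbOf (ρbar := ρbar) b
    exact ⟨F, hF, fun σ hσ => hF1 σ ((IntermediateField.mem_fixingSubgroup_iff _ _).1 hσ)⟩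
  have hE' : ∀ q ∈ X.E, q.Prime ∧ q ≠ p ∧ (q : ResidueField O) ≠ 0 ∧ q ∉ Smin := by
    intro q hq
    obtain ⟨hq', hqp, h1, -⟩ := hE q hq
    refine ⟨hq', hqp, fun h => ?_, hESmin q hq⟩
    obtain ⟨c, hc⟩ := h1
    rw [show q = p * c + 1 by have := hq'.two_le; omega, Nat.cast_add, Nat.cast_mul, hpk, zero_mul,
      zero_add, Nat.cast_one] at h
    exact one_ne_zero h
  obtain ⟨r, hr⟩ := exists_avoidance_primes ρbar p hsplit S Smin X.E h2 C' hdet hunr hbc b hTW L
    hrbc hmem hE' hEI hEscal hpk hbound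
  have h3r : 3 * X.E.card ≤ r := by
    obtain ⟨qv, -, h, -⟩ := hr 0
    exact h
  choose P₀ hP₀ using fun i : X.E => GaloisBasics.exists_liesOverPrime (hE i i.2).1
  choose s₀ hs₀ using fun i : X.E => exists_movesRoot (hP₀ i) (hE i i.2).1 hp (hE i i.2).2.1
  choose f₀ hf₀ using fun i : X.E => GaloisBasics.exists_isFrobeniusAt (hP₀ i) (hE i i.2).1
  have hd : 0 < Module.finrank O X.BaseSpace := by
    have : NeZero X.baseLevel := ⟨mul_ne_zero X.B_ne_zero
      (Finset.prod_ne_zero_iff.2 fun q hq => (X.mem_E q hq).1.ne_zero)⟩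
    have := GroupH1.finite_locM (O := O)
      (V := GroupH1.HMod X.baseLevel (⊤ : Subgroup (ZMod X.baseLevel)ˣ) O) (GroupH1.eigIdeal X.a)
    have : Module.Free O X.BaseSpace := GroupH1.free_locM (GroupH1.eigIdeal X.a) ⊤
    exact Module.finrank_pos
  refine false_of_levelData ρbar hp2 X.p_mem hv₀ hζ X.E hE
    (show r = 3 * X.E.card + (r - 3 * X.E.card) by omega) hd P₀ s₀ f₀ hP₀ hs₀ hf₀
    fun n => Classical.choice ?_
  obtain ⟨qv, hinj, -, hqv, hroots, hγ⟩ := hr n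
  obtain ⟨T, hnT, hTq⟩ := exists_twTuple hρ hdetbar hpS hBS hES qv hinj hqv hroots
  obtain rfl : qv = fun j => (T.q j : ℕ) := funext fun j => (hTq j).symm
  have hqS : ∀ j, (T.q j : ℕ) ∉ S := fun j => (hqv j).2.1
  obtain ⟨hfree, hhecke, hform, htriv, hgal⟩ := hlev O p X r T
  obtain ⟨hred, θ, -, -, H, -, hres⟩ := T.exists_datum hhecke hW hbase hρ
  obtain ⟨DQ⟩ := hring T hqS θ H hres
  obtain ⟨-, φ, hφ⟩ := T.exists_algHom hhecke hW hbase hρ DQ (hcond T hqS)
  obtain ⟨s, hs, hspow, hspan, hpts⟩ := hgal ρbar _ DQ inferInstance inferInstance hW hρ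
    (hdet _ _ _ DQ.isOfType.1) hbot h34 h35 h36 hfree hform htriv φ hφ
  obtain ⟨y, hy⟩ := T.exists_isFreeLevel hfree hW φ s hspow hspan
  obtain ⟨γ, hγs, hγc⟩ := hγ DQ P₀ s₀ f₀ hP₀ hs₀ hf₀
  obtain ⟨mods⟩ := T.nonempty_levelModules (AlgebraicClosure (FractionRing O)) hred hnT φ s hs y hy
    hpts
  refine ⟨⟨_, DQ, γ, hγs, hγc, hdet _ _ _ DQ.isOfType.1, fun i τ hτ => ?_, mods⟩⟩
  obtain ⟨V, hV⟩ := exists_units_barMat DQ b
  have h := hV τ
  rw [← rbOf_apply, hEI i i.2 (P₀ i) (hP₀ i) τ hτ, one_mul] at h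
  exact V.mul_right_inj.1 (h.trans (mul_one _).symm)

end AvoidSetup

end Fermat.Agent.LevelLowering.Avoid
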