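import Fermat.Agent.LevelLowering.Avoid.Level.Surjection
import Fermat.Agent.Lifting.TWPrimes

/-!
# Ihara avoidance: one level of the tower

A module free over the diamond operators gives a free level once inertia elements at the
Taylor–Wiles primes span their augmentations; Taylor–Wiles primes with distinct eigenvalues of the
residual representation give the roots of a tuple.
-/

set_option autoImplicit false

noncomputable section

open IsLocalRing Polynomial Module
open Fermat.Agent.GaloisBasics (GalQ)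

namespace Fermat.Agent.LevelLowering.Avoid

variable {O : Type} [CommRing O] [IsDomain O] [IsDiscreteValuationRing O]
  [IsAdicComplete (maximalIdeal O) O]

namespace AvoidSetup

variable {p : ℕ} {X : AvoidSetup p O} {r : ℕ} (T : X.TWTuple r)

namespace TWTuple

/-- The diamond operators as a map into the algebra. -/
def diaHom : T.Delta →* T.Alg where
  toFun := T.diaA
  map_one' := Subtype.ext (map_one T.dia)
  map_mul' δ δ' := Subtype.ext (map_mul T.dia δ δ')

omit [IsAdicComplete (maximalIdeal O) O] in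
theorem diaHom_apply (δ : T.Delta) : T.diaHom δ = T.diaA δ := rfl

omit [IsAdicComplete (maximalIdeal O) O] in
/-- A free module gives a free level. -/
theorem exists_isFreeLevel [CharZero O] [Finite (ResidueField O)] (hfree : T.FreeLevel)
    (hW : X.Witness) {R : Type} [CommRing R] [Algebra O R] (φ : R →ₐ[O] T.Alg) (s : Fin r → R)
    (hpow : ∀ j, φ (s j) ^ p ^ T.expoT j = 1)
    (hspan : ∀ j, Ideal.span {φ (s j) - 1} • (⊤ : Submodule T.Alg T.Space) =
      Ideal.span {T.tT j - 1} • ⊤) :
    ∃ y : Fin (Module.finrank O X.BaseSpace) → T.Space,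
      IsFreeLevel (O := O) (p := p) T.expoT T.expoE (fun j => φ (s j)) T.tE y := by
  classical
  have := Fact.mk X.fact_prime.out
  obtain ⟨y, hy⟩ := hfree inferInstance inferInstance hW
  let G := Patching.GroupAlgV O p T.expo
  let ψ : G →ₐ[O] T.Alg := MonoidAlgebra.lift O T.Alg T.Delta T.diaHom
  have hψ : ∀ c : G, MonoidAlgebra.lift O (Module.End O T.Space) T.Delta T.dia c =
      ((ψ c : T.Alg) : Module.End O T.Space) := fun c => by
    have h : (Subalgebra.val _).comp ψ =
        MonoidAlgebra.lift O (Module.End O T.Space) T.Delta T.dia :=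
      by
      refine MonoidAlgebra.algHom_ext' (MonoidHom.ext fun δ => ?_) (Subsingleton.elim _ _)
      simp [ψ, diaHom_apply, diaA]
    rw [← h]
    rfl
  let e : (Fin (Module.finrank O X.BaseSpace) → G) →ₗ[O] T.Space := ∑ i, (LinearMap.applyₗ (y i)).comp
    ((MonoidAlgebra.lift O (Module.End O T.Space) T.Delta T.dia).toLinearMap.comp
      (LinearMap.proj i))
  have he : ∀ c, e c = ∑ i, MonoidAlgebra.lift O (Module.End O T.Space) T.Delta T.dia (c i) (y i) :=
    fun c => by simp [e]
  have hbij : Function.Bijective e := by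
    rw [show (e : (Fin (Module.finrank O X.BaseSpace) → G) → T.Space) = _ from funext he]
    exact hy
  refine ⟨y, hpow, fun i => ?_, ?_, fun z => ?_⟩
  · show T.diaHom (Patching.genV (Fin.natAdd r i)) ^ p ^ T.expo (Fin.natAdd r i) = 1
    rw [← map_pow, Patching.gen_pow_eq_one, map_one]
  · rw [← (LinearEquiv.ofBijective e hbij).finrank_eq, Module.finrank_pi_fintype, Finset.sum_const,
      Finset.card_univ, Fintype.card_fin, smul_eq_mul,
      show Module.finrank O G = Nat.card T.Delta from by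
        simp [G, (MonoidAlgebra.coeffLinearEquiv O).finrank_eq, Nat.card_eq_fintype_card],
      Nat.card_pi]
    simp only [Nat.card_eq_fintype_card, Fintype.card_multiplicative, ZMod.card, expoT, expoE]
    rw [Fin.prod_univ_add]
  · obtain ⟨c, rfl⟩ := hbij.2 z
    set I : Ideal T.Alg :=
      Ideal.span (Set.range (fun j => T.tT j - 1) ∪ Set.range (fun i => T.tE i - 1)) with hI
    set M := Ideal.span (Set.range (fun j => φ (s j) - 1) ∪ Set.range (fun i => T.tE i - 1)) •
      (⊤ : Submodule T.Alg T.Space) with hM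
    have hIM : I • (⊤ : Submodule T.Alg T.Space) ≤ M := by
      rw [hI, Submodule.span_smul_eq, Submodule.set_smul_le_iff]
      rintro a x (⟨j, rfl⟩ | ⟨i, rfl⟩) hx
      · have h1 : (T.tT j - 1) • x ∈
            Ideal.span {φ (s j) - 1} • (⊤ : Submodule T.Alg T.Space) := by
          rw [hspan j]
          exact Submodule.smul_mem_smul (Ideal.mem_span_singleton_self _) hx
        exact Submodule.smul_mono (Ideal.span_mono (by
          rintro _ rfl; exact Or.inl ⟨j, rfl⟩)) le_rfl h1
      · exact Submodule.smul_mem_smul (Ideal.subset_span (Or.inr ⟨i, rfl⟩)) hx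
    have hone : ∀ δ, Ideal.Quotient.mk I (T.diaHom δ) = 1 := by
      have h : ((Ideal.Quotient.mk I).toMonoidHom.comp T.diaHom) = 1 := by
        refine Patching.delta_hom_ext fun l => ?_
        show Ideal.Quotient.mk I (T.diaA (Patching.genV l)) = 1
        rw [← map_one (Ideal.Quotient.mk I), Ideal.Quotient.eq, hI]
        refine Fin.addCases (fun j => ?_) (fun i => ?_) l
        · exact Ideal.subset_span (Or.inl ⟨j, rfl⟩)
        · exact Ideal.subset_span (Or.inr ⟨i, rfl⟩)
      exact fun δ => DFunLike.congr_fun h δ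
    let aug : G →ₐ[O] O := MonoidAlgebra.lift O O T.Delta 1
    have hc : ∀ g : G, ψ g - algebraMap O T.Alg (aug g) ∈ I := fun g => by
      have h : (Ideal.Quotient.mkₐ O I).comp ψ = (Algebra.ofId O _).comp aug :=
        by
        refine MonoidAlgebra.algHom_ext' (MonoidHom.ext fun δ => ?_) (Subsingleton.elim _ _)
        simp [ψ, aug, hone]
      rw [← Ideal.Quotient.eq, Ideal.Quotient.mk_algebraMap]
      exact DFunLike.congr_fun h g
    refine ⟨fun i => aug (c i), ?_⟩
    rw [he, ← Finset.sum_sub_distrib]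
    refine Submodule.sum_mem _ fun i _ => hIM ?_
    rw [hψ, show ((ψ (c i) : T.Alg) : Module.End O T.Space) (y i) = ψ (c i) • y i from rfl,
      ← sub_smul]
    exact Submodule.smul_mem_smul (hc (c i)) Submodule.mem_top

omit [IsAdicComplete (maximalIdeal O) O] in
/-- The exponents at Taylor–Wiles primes `≡ 1 (mod pⁿ⁺¹)` are large. -/
theorem le_expoT {n : ℕ} {j : Fin r} (h : p ^ (n + 1) ∣ (T.q j : ℕ) - 1) : n ≤ T.expoT j := by
  show n ≤ (T.pr (Fin.castAdd X.E.card j) - 1).factorization p
  rw [T.pr_castAdd]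
  exact (Nat.le_succ n).trans (((X.fact_prime.out).pow_dvd_iff_le_factorization
    (by have := (T.q j).2.two_le; omega)).1 h)

end TWTuple

omit [IsAdicComplete (maximalIdeal O) O] in
/-- A residual representation has the traces of the system. -/
theorem IsResidual.trace_eq {ρbar : ResidualGaloisRep (ResidueField O)} (h : X.IsResidual ρbar)
    {ℓ : Nat.Primes} (h1 : (ℓ : ℕ) ≠ p) (h2 : ¬ (ℓ : ℕ) ∣ X.B) (h3 : (ℓ : ℕ) ∉ X.E)
    {P : ValuationSubring (AlgebraicClosure ℚ)} (hP : P.LiesOverPrime (ℓ : ℕ)) {σ : GalQ}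
    (hσ : P.IsFrobeniusAt σ (ℓ : ℕ)) :
    LinearMap.trace (ResidueField O) ρbar.V (ρbar.ρ σ) = X.a ℓ := by
  have hc := h.frob ℓ h1 h2 h3 P hP σ hσ
  rw [ConductorLevel.charpoly_eq_of_finrank_two ρbar.finrank_eq] at hc
  have h1 := congrArg (fun f : (ResidueField O)[X] => f.coeff 1) hc
  simpa [coeff_X_pow, coeff_C] using h1

omit [IsAdicComplete (maximalIdeal O) O] in
/-- Taylor–Wiles primes outside `S` give a tuple. -/
theorem exists_twTuple {ρbar : ResidualGaloisRep (ResidueField O)} (hρ : X.IsResidual ρbar)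
    (hdet : (GaloisRepAdic.ofResidualGaloisRep ρbar).DetIsCyclotomic p) {S : Finset ℕ}
    (hpS : p ∈ S) (hBS : X.B.primeFactors ⊆ S) (hES : X.E ⊆ S) {n : ℕ} (qv : Fin r → ℕ)
    (hinj : Function.Injective qv)
    (hqv : ∀ i, (qv i).Prime ∧ qv i ∉ S ∧ p ^ (n + 1) ∣ qv i - 1)
    (hsplit : ∀ i, ∀ P : ValuationSubring (AlgebraicClosure ℚ), P.LiesOverPrime (qv i) →
      ∀ φ : AlgebraicClosure ℚ ≃ₐ[ℚ] AlgebraicClosure ℚ, P.IsFrobeniusAt φ (qv i) →
        ∃ α β : ResidueField O, α ≠ β ∧
          LinearMap.charpoly (ρbar.ρ φ) = (Polynomial.X - C α) * (Polynomial.X - C β)) :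
    ∃ T : X.TWTuple r, (∀ j, n ≤ T.expoT j) ∧ ∀ j, (T.q j : ℕ) = qv j := by
  classical
  have := Fact.mk X.fact_prime.out
  have hne : ∀ i, qv i ≠ p := fun i h => (hqv i).2.1 (h ▸ hpS)
  have hnB : ∀ i, ¬ qv i ∣ X.B := fun i h =>
    (hqv i).2.1 (hBS (Nat.mem_primeFactors.2 ⟨(hqv i).1, h, X.B_ne_zero⟩))
  have hnE : ∀ i, qv i ∉ X.E := fun i h => (hqv i).2.1 (hES h)
  choose α hα using fun i => Lifting.exists_isTWRoot ρbar X.p_mem hdet X.a ⟨qv i, (hqv i).1⟩
    ((dvd_pow_self p n.succ_ne_zero).trans (hqv i).2.2) (hsplit i)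
    fun P hP φ hφ => hρ.trace_eq (hne i) (hnB i) (hnE i) hP hφ
  refine ⟨⟨fun i => ⟨qv i, (hqv i).1⟩, fun i j h => hinj (congrArg Subtype.val h),
    fun i => (dvd_pow_self p n.succ_ne_zero).trans (hqv i).2.2, hnB, hnE, α, hα⟩,
    fun j => TWTuple.le_expoT _ (hqv j).2.2, fun j => rfl⟩

end AvoidSetup

end Fermat.Agent.LevelLowering.Avoid
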