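import Fermat.Agent.LevelLowering.General
import Fermat.Agent.LevelLowering.Residual.Setup
import Fermat.Agent.TWAssembly.Assembly
import Fermat.Agent.TWLocal.Generation
import Fermat.Agent.TWLocal.Conditions
import Fermat.Agent.OrdKummer.TresRamifie

/-!
# Ihara avoidance: the residual representation at exceptional and at necessary primes

`E[p] ⊗ k` in a basis is trivial on inertia and scalar on decomposition groups at exceptional
primes, and is not peu ramifiée at `p` when `E[p]` is not finite there.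
-/

set_option autoImplicit false

noncomputable section

open IsLocalRing
open Fermat.Agent.TWAssembly (rbOf rbOf_apply)
open Fermat.Agent.GaloisBasics (Qbar GalQ)

namespace Fermat.Agent.LevelLowering.Avoid

variable {W : WeierstrassCurve ℤ} {p : ℕ} [Fact p.Prime] {O : Type} [CommRing O] [IsDomain O]
  [IsDiscreteValuationRing O] [Algebra (ZMod p) (ResidueField O)]
  (X₀ : Residual.ResidualSetup W p O)

/-- `W[p]` is unramified at `q` exactly when the residual representation is. -/
theorem torsionUnramified_iff (hΔ : W.Δ ≠ 0) (q : ℕ) :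
    TorsionUnramified W p q ↔ (TWHyp.residualRep W hΔ p).IsUnramifiedAt q :=
  ⟨fun h A hA σ hσ => h A hA σ hσ, fun h A hA σ hσ => h A hA σ hσ⟩

include X₀ in
/-- Away from `p`, `W[p]` is unramified outside its ramified primes. -/
theorem torsionUnramified_iff_notMem {q : ℕ} (hq : q.Prime) (hqp : q ≠ p) :
    TorsionUnramified W p q ↔ q ∉ Lifting.ramifiedPrimes W p := by
  rw [torsionUnramified_iff X₀.Δ_ne_zero,
    Lifting.residualRep_isUnramifiedAt_iff W X₀.Δ_ne_zero p X₀.semistable X₀.ne_two hq hqp]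

include X₀ in
/-- An exceptional prime is not a ramified prime. -/
theorem notMem_ramifiedPrimes_of_isExceptional {q : ℕ} (h : IsExceptional W p q) :
    q ∉ Lifting.ramifiedPrimes W p :=
  (torsionUnramified_iff_notMem X₀ h.1 h.2.1).1 h.2.2.2.1

/-- Inertia at an exceptional prime acts trivially. -/
theorem rbOf_inertia_of_isExceptional (b : Module.Basis (Fin 2) (ResidueField O) X₀.rhobar.V)
    {q : ℕ} (h : IsExceptional W p q) {P : ValuationSubring Qbar} (hP : P.LiesOverPrime q)
    {σ : GalQ} (hσ : σ ∈ P.inertiaSubgroupIn ℚ) : rbOf X₀.rhobar b σ = 1 := by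
  have hu : X₀.rhobar.IsUnramifiedAt q :=
    (X₀.isUnramifiedAt_iff h.1 h.2.1).2 (notMem_ramifiedPrimes_of_isExceptional X₀ h)
  rw [rbOf_apply, hu P hP σ hσ]
  exact LinearMap.toMatrix_one b

/-- A decomposition group at an exceptional prime acts by scalars. -/
theorem rbOf_decomposition_of_isExceptional
    (b : Module.Basis (Fin 2) (ResidueField O) X₀.rhobar.V)
    {q : ℕ} (h : IsExceptional W p q) {P : ValuationSubring Qbar} (hP : P.LiesOverPrime q)
    {σ : GalQ} (hσ : σ ∈ P.decompositionSubgroup ℚ) :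
    ∃ x : ResidueField O, rbOf X₀.rhobar b σ = x • (1 : Matrix (Fin 2) (Fin 2) (ResidueField O)) := by
  obtain ⟨φ, hφ⟩ := GaloisBasics.exists_isFrobeniusAt hP h.1
  obtain ⟨c, hc⟩ : ∃ c : ZMod p, (TWHyp.residualRep W X₀.Δ_ne_zero p).ρ φ = c • 1 :=
    h.2.2.2.2 P hP φ hφ
  have hφ1 : rbOf X₀.rhobar b φ = algebraMap (ZMod p) (ResidueField O) c • 1 := by
    rw [rbOf_apply, show X₀.rhobar.ρ φ = algebraMap (ZMod p) (ResidueField O) c • 1 from by
      show ((TWHyp.residualRep W X₀.Δ_ne_zero p).ρ φ).baseChange (ResidueField O) = _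
      rw [hc, LinearMap.baseChange_smul, LinearMap.baseChange_one, algebraMap_smul],
      map_smul]
    exact congrArg _ (LinearMap.toMatrix_one b)
  obtain ⟨F, hF, hF1⟩ := TWLocal.exists_level_rbOf (ρbar := X₀.rhobar) b
  obtain ⟨F', hle, hF', hn⟩ : ∃ F' : IntermediateField ℚ Qbar,
      F ≤ F' ∧ FiniteDimensional ℚ F' ∧ Normal ℚ F' :=
    ⟨IntermediateField.normalClosure ℚ F Qbar, F.le_normalClosure, inferInstance,
      normalClosure.normal ℚ F Qbar⟩
  obtain ⟨i, τ, hτ, hmem⟩ := TWLocal.exists_pow_frobenius_mul hP h.1 F' hφ hσ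
  have hτ1 : rbOf X₀.rhobar b τ = 1 :=
    hF1 τ fun x hx => (IntermediateField.mem_fixingSubgroup_iff _ _).1 hτ x (hle hx)
  have h1 := rbOf_inertia_of_isExceptional X₀ b h hP hmem
  refine ⟨algebraMap (ZMod p) (ResidueField O) c ^ i, ?_⟩
  rw [show σ = φ ^ i * ((φ ^ i)⁻¹ * σ * τ) * τ⁻¹ by group, map_mul, map_mul, h1, mul_one,
    map_pow, hφ1, smul_pow, one_pow]
  have h2 : rbOf X₀.rhobar b τ⁻¹ = 1 := by
    rw [← one_mul (rbOf X₀.rhobar b τ⁻¹), ← hτ1, ← map_mul, mul_inv_cancel, map_one, hτ1]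
  rw [h2, mul_one]

omit [Fact p.Prime] in
/-- Where `E[p]` is not finite the curve is multiplicative with `p ∤ v_p(Δ)`. -/
theorem dvd_and_not_dvd_of_not_finite (h : ¬ TorsionFiniteAt W p) :
    (p : ℤ) ∣ W.Δ ∧ ¬ p ∣ padicValInt p W.Δ := by
  simp only [TorsionFiniteAt, not_or, WeierstrassCurve.IsGoodPrimeFor, not_not] at h
  refine ⟨h.1, fun hd => h.2 ?_⟩
  rw [WeierstrassCurve.IsPeuRamifieeAt, WeierstrassCurve.map_Δ, eq_intCast, padicValRat.of_int]
  exact Int.natCast_dvd_natCast.2 hd

/-- The residual representation is très ramifiée where `W[p]` is not finite. -/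
theorem not_isPeuKummer_of_not_finite [Finite (ResidueField O)] (h : ¬ TorsionFiniteAt W p) :
    ¬ OrdKummer.IsPeuKummer X₀.rhobar p :=
  OrdKummer.not_isPeuKummer_baseChange W X₀.ne_two X₀.Δ_ne_zero
    (dvd_and_not_dvd_of_not_finite h).1
    (X₀.semistable p Fact.out (dvd_and_not_dvd_of_not_finite h).1)
    (dvd_and_not_dvd_of_not_finite h).2 _ _ _

end Fermat.Agent.LevelLowering.Avoid
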