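import Fermat.Agent.LevelLowering.Avoid.Assembly.Contradiction
import Fermat.Agent.LevelLowering.Avoid.Assembly.Residual
import Fermat.Agent.LevelLowering.Avoid.SlackBound
import Fermat.Agent.LevelLowering.Avoid.Start
import Fermat.Agent.Lifting.DatumConditions

/-!
# Ihara avoidance: the exceptional primes are removed

For a semistable curve the flat or strictly ordinary deformation problems give the input of the
avoidance argument, which removes all exceptional primes from a level at once.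
-/

set_option autoImplicit false

noncomputable section

open IsLocalRing Polynomial
open Fermat.Agent.TWAssembly (rbOf)
open Fermat.Agent.GaloisBasics (Qbar GalQ)
open Fermat.Agent.PoitouTate

namespace Fermat.Agent.LevelLowering.Avoid

open ExtCitation

/-- Poitou–Tate duality, right exactness and the Euler characteristic at `p`. -/
def DualityInputs (p : ℕ) [Fact p.Prime] : Prop :=
  ∃ I : InvSystem p, (∀ T : Finset Nat.Primes, pPrime p ∈ T → GlobalInputs I T) ∧
    (∀ T : Finset Nat.Primes, pPrime p ∈ T → TWEuler.RightExact (sLevels T) p) ∧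
    ∀ T : Finset Nat.Primes, pPrime p ∈ T →
      TWEuler.AllWeights (sLevels T) complexConjugation (muAct p)

namespace AvoidSetup

variable {O : Type} [CommRing O] [IsDomain O] [IsDiscreteValuationRing O]
  [IsAdicComplete (maximalIdeal O) O] {p : ℕ} {X : AvoidSetup p O}

namespace TWTuple

variable {r : ℕ} (T : X.TWTuple r)

omit [IsAdicComplete (maximalIdeal O) O] in
theorem twLevel_eq : T.twLevel = X.B * (∏ l, T.pr l) ^ 2 := by
  rw [twLevel, level, mul_assoc, ← sq]

omit [IsAdicComplete (maximalIdeal O) O] in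
theorem prime_eq_pr_of_dvd_prod {q : ℕ} (hq : q.Prime) (h : q ∣ ∏ l, T.pr l) :
    q ∈ X.E ∪ T.primeSet := by
  obtain ⟨l, -, hl⟩ := (Prime.dvd_finsetProd_iff hq.prime _).1 h
  rw [(Nat.prime_dvd_prime_iff_eq hq (T.pr_prime l)).1 hl]
  refine Fin.addCases (fun j => ?_) (fun i => ?_) l
  · rw [pr, Fin.append_left]
    exact Finset.mem_union_right _ (Finset.mem_image_of_mem _ (Finset.mem_univ j))
  · rw [pr, Fin.append_right]
    exact Finset.mem_union_left _ (T.primeE_mem i)

omit [IsAdicComplete (maximalIdeal O) O] in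
theorem badPrimes_subset {Smin : Finset ℕ} (hp : p ∈ Smin) (hB : X.B.primeFactors ⊆ Smin) :
    T.badPrimes ⊆ Smin ∪ X.E ∪ T.primeSet := by
  intro q hq
  rw [Finset.union_assoc]
  rcases Finset.mem_insert.1 hq with rfl | hq
  · exact Finset.mem_union_left _ hp
  obtain ⟨hq', hd, -⟩ := Nat.mem_primeFactors.1 hq
  rcases hq'.dvd_mul.1 hd with h | h
  · exact Finset.mem_union_left _ (hB (Nat.mem_primeFactors.2 ⟨hq', h, X.B_ne_zero⟩))
  · exact Finset.mem_union_right _ (T.prime_eq_pr_of_dvd_prod hq' h)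

omit [IsAdicComplete (maximalIdeal O) O] in
theorem notMem_badPrimes {q : ℕ} (hqp : q ≠ p) (hB : ¬ q ∣ X.B) (hE : q ∉ X.E ∪ T.primeSet) :
    q ∉ T.badPrimes := fun hq => by
  obtain ⟨hq', hd, -⟩ := Nat.mem_primeFactors.1 ((Finset.mem_insert.1 hq).resolve_left hqp)
  exact (hq'.dvd_mul.1 hd).elim hB fun h => hE (T.prime_eq_pr_of_dvd_prod hq' h)

omit [IsAdicComplete (maximalIdeal O) O] in
theorem dvd_twLevel_iff {q : ℕ} (hq : q.Prime) (hE : q ∉ X.E ∪ T.primeSet) :
    (q ∣ T.twLevel ↔ q ∣ X.B) ∧ (q ^ 2 ∣ T.twLevel → q ^ 2 ∣ X.B) := by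
  have hc : Nat.Coprime q ((∏ l, T.pr l) ^ 2) :=
    ((hq.coprime_iff_not_dvd).2 fun h => hE (T.prime_eq_pr_of_dvd_prod hq h)).pow_right 2
  rw [T.twLevel_eq]
  exact ⟨hc.dvd_mul_right, fun h => (hc.pow_left 2).dvd_of_dvd_mul_right h⟩

end TWTuple

end AvoidSetup

/-- A representation is unramified where a representation equivalent to an extension of it is. -/
theorem isUnramifiedAt_of_equiv {k k' : Type} [Field k] [Field k'] (f : k →+* k')
    {r : ResidualGaloisRep k} {r' : ResidualGaloisRep k'} (h : r'.IsEquiv (r.baseChangeAlong f))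
    {q : ℕ} (hu : r'.IsUnramifiedAt q) : r.IsUnramifiedAt q := by
  obtain ⟨e⟩ := h
  let _ : Algebra k k' := f.toAlgebra
  intro P hP σ hσ
  have h1 : (r.ρ σ).baseChange k' = 1 := LinearMap.ext fun x => by
    obtain ⟨y, rfl⟩ := e.toLinearEquiv.surjective x
    have h2 := e.map_apply σ y
    rw [hu P hP σ hσ] at h2
    exact h2.symm
  let b := Module.finBasisOfFinrankEq k r.V r.finrank_eq
  refine (LinearMap.toMatrix b b).injective (Matrix.map_injective f.injective ?_)
  show (LinearMap.toMatrix b b (r.ρ σ)).map (algebraMap k k') =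
    (LinearMap.toMatrix b b (1 : Module.End k r.V)).map (algebraMap k k')
  rw [← LinearMap.toMatrix_baseChange, h1, ← LinearMap.toMatrix_baseChange, LinearMap.baseChange_one]

variable {W : WeierstrassCurve ℤ} {p : ℕ} [Fact p.Prime] {O : Type} [CommRing O] [IsDomain O]
  [IsDiscreteValuationRing O] [IsAdicComplete (maximalIdeal O) O] [CharZero O]
  [Finite (ResidueField O)] [Algebra (ZMod p) (ResidueField O)]

/-- The system of a residual setup at `B ∏E` occurs at level `B`. -/
theorem false_of_residualSetup (hlev : LevelTheorems) (hdual : DualityInputs p)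
    (h32 : Lifting.FlatAtGoodLevel) (h33 : Lifting.OrdinaryAtLevel)
    (h34 : Lifting.UnipotentAtSemistable) (h35 : ConductorLevel.NewformSteinberg)
    (h36 : ConductorLevel.NewformCarayol) (X : AvoidSetup p O)
    (X₀ : Residual.ResidualSetup W p O) (hρ : X.IsResidual X₀.rhobar) (hW : X.Witness)
    (hbase : Nontrivial X.BaseSpace) (hbot : ¬ Nontrivial X.BottomSpace)
    (hB : Squarefree X.B)
    (hBram : ∀ q ∈ X.B.primeFactors, q ≠ p → ¬ TorsionUnramified W p q)
    (hBp : p ∣ X.B → ¬ TorsionFiniteAt W p) (hE : ∀ q ∈ X.E, IsExceptional W p q)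
    {v₀ : ℕ} (hv₀ : 1 ≤ v₀) {ζ : O} (hζ : IsPrimitiveRoot ζ (p ^ v₀))
    (hv : ∀ q ∈ X.E, (q - 1).factorization p ≤ v₀) : False := by
  classical
  obtain ⟨I, hG, hre, hN⟩ := hdual
  have hp : p.Prime := Fact.out
  have hp2 := X₀.ne_two
  set b := X₀.basis
  set Smin := insert p (Lifting.ramifiedPrimes W p) with hSmindef
  set S := Smin ∪ X.E with hSdef
  have hpSmin : p ∈ Smin := Finset.mem_insert_self _ _
  have hBSmin : X.B.primeFactors ⊆ Smin := by
    intro q hq
    by_cases hqp : q = p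
    · subst hqp; exact hpSmin
    · refine Finset.mem_insert_of_mem (by_contra fun hn => hBram q hq hqp ?_)
      exact (torsionUnramified_iff_notMem X₀ (Nat.prime_of_mem_primeFactors hq) hqp).2 hn
  have hESmin : ∀ q ∈ X.E, q ∉ Smin := fun q hq h => by
    rcases Finset.mem_insert.1 h with e | h
    · exact (hE q hq).2.1 e
    · exact notMem_ramifiedPrimes_of_isExceptional X₀ (hE q hq) h
  have hSminP : ∀ q ∈ Smin, q.Prime := fun q hq => (Finset.mem_insert.1 hq).elim
    (fun e => e.symm ▸ hp) (Lifting.prime_of_mem_ramifiedPrimes W p)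
  have hSP : ∀ q ∈ S, q.Prime := fun q hq => (Finset.mem_union.1 hq).elim (hSminP q)
    fun h => (X.mem_E q h).1
  have hram : ∀ q ∈ Smin, q ≠ p → ¬ X₀.rhobar.IsUnramifiedAt q := fun q hq hqp =>
    (X₀.hmin (hSminP q hq) hqp).1 hq
  have helem := TWElement.twElementProp_rbOf p hp2 X₀.rhobar X₀.absIrr X₀.detIsCyclotomic X₀.hTW b
  have hEscal : ∀ q ∈ X.E, ∀ P : ValuationSubring Qbar, P.LiesOverPrime q →
      ∀ σ ∈ P.decompositionSubgroup ℚ, ∃ x : ResidueField O,
        rbOf X₀.rhobar b σ = x • (1 : Matrix (Fin 2) (Fin 2) (ResidueField O)) :=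
    fun q hq P hP σ hσ => rbOf_decomposition_of_isExceptional X₀ b (hE q hq) hP hσ
  obtain ⟨F, hF, hF1⟩ := TWLocal.exists_level_rbOf (ρbar := X₀.rhobar) b
  have hpk := (GlobalBound.detCyclo_matrixHom b X₀.detIsCyclotomic).1
  have h2 := GlobalBound.two_ne_zero_of_cast hp2 hpk
  have hbound := fun L => slackBoundProp_rbOf X₀.rhobar b p hp2 X₀.absIrr X₀.detIsCyclotomic
    X₀.charpoly_split X₀.hTW S Smin hpSmin Finset.subset_union_left hSP
    (fun q hq hqp => X₀.hmin hq hqp) X.E Finset.subset_union_right hESmin hEscal I hG hre hN L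
  -- the primes of `Smin` at a level
  have hU : ∀ {r : ℕ} (T : X.TWTuple r), (∀ j, (T.q j : ℕ) ∉ S) →
      ∀ (θ : CuspForm.heckeAlgebra T.twLevel 2 (↑T.badPrimes : Set ℕ) →+* ResidueField O)
        (H : CuspForm.HeckeGaloisRepDatum T.twLevel (↑T.badPrimes : Set ℕ) O θ
          (CuspForm.heckeLocal T.twLevel (↑T.badPrimes : Set ℕ) O θ)),
        H.ρ.residual.IsEquiv (X₀.rhobar.baseChangeAlong (ResidueField.map
          (algebraMap O (CuspForm.heckeLocal T.twLevel (↑T.badPrimes : Set ℕ) O θ)))) →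
        (∀ q ∈ Smin, q ∉ X.E ∪ T.primeSet) ∧
        ∀ q ∈ Smin, q.Prime → q ≠ p → q ∣ T.twLevel ∧ ¬ q ^ 2 ∣ T.twLevel := by
    intro r T hT θ H hres
    have hnot : ∀ q ∈ Smin, q ∉ X.E ∪ T.primeSet := fun q hq h => by
      rcases Finset.mem_union.1 h with h | h
      · exact hESmin q h hq
      · obtain ⟨j, -, rfl⟩ := Finset.mem_image.1 h
        exact hT j (Finset.mem_union_left _ hq)
    refine ⟨hnot, fun q hq hq' hqp => ?_⟩
    obtain ⟨h1, h2'⟩ := T.dvd_twLevel_iff hq' (hnot q hq)
    have hqB : q ∣ X.B := by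
      by_contra hn
      refine hram q hq hqp ?_
      have hu : H.ρ.residual.IsUnramifiedAt q := HeckeAlg.isUnramifiedAt_residual
        (S31.result hp X.p_mem T.mem_badPrimes_self (fun _ h h' => T.mem_badPrimes_of_dvd h h') H q hq'
          (T.notMem_badPrimes hqp hn (hnot q hq)))
      exact isUnramifiedAt_of_equiv _ hres hu
    refine ⟨h1.2 hqB, fun h => ?_⟩
    exact hq'.ne_one (Nat.isUnit_iff.1 (hB q (by rw [← sq]; exact h2' h)))
  have hT' : ∀ {r : ℕ} (T : X.TWTuple r),
      insert p (Lifting.ramifiedPrimes W p) ⊆ Smin ∪ X.E ∪ T.primeSet :=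
    fun T => Finset.subset_union_left.trans Finset.subset_union_left
  by_cases hpB : p ∣ X.B
  · -- strictly ordinary at `p`
    obtain ⟨hpΔ, -⟩ := dvd_and_not_dvd_of_not_finite (hBp hpB)
    have hord := Lifting.residualOver_detStrict W X₀.Δ_ne_zero p (ResidueField O) X₀.semistable
      hp2 hpΔ
    refine AvoidSetup.false_of_setup hlev h34 h35 h36 hW hbase hbot hv₀ hζ hv X₀.rhobar hρ
      X₀.detIsCyclotomic X₀.charpoly_split b helem
      (fun q hq P hP σ hσ => rbOf_inertia_of_isExceptional X₀ b (hE q hq) hP hσ) hEscal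
      S Smin (Finset.mem_union_left _ hpSmin) (hBSmin.trans Finset.subset_union_left)
      Finset.subset_union_right hESmin (fun T => GaloisRep.strictOrdinaryCondition O p T)
      (fun T A _ _ _ ρ h => h.1) (fun T A _ _ _ ρ h => h.2.2)
      (fun T A B _ _ _ _ _ _ φ hφ ρ _ h =>
        ⟨TWAssembly.detIsCyclotomic_baseChange _ hφ h.1,
          TWAssembly.isStrictOrdinaryAt_baseChange _ hφ h.2.1,
          fun q hq hqT => TWAssembly.isUnramifiedAt_baseChange _ hφ (h.2.2 q hq hqT)⟩)
      (TWLocal.strictConds p (rbOf X₀.rhobar b))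
      (fun T DQ V hV d q hq P hP =>
        TWLocal.strictConds_mem b hp hp2 Smin hSminP hram T DQ V hV d q hq P hP)
      (hbound _ (fun q _ Y _ => GlobalBound.cob_mem_strictConds ⟨F, hF, hF1⟩ Y)
        fun q _ => TWLocal.finrank_strictConds_le (padicPlace_liesOverPrime _) q.2 hp hp2 hpk h2
          ⟨F, hF, hF1⟩)
      (fun T hT θ H hres => ?_)
      fun T hT θ H hres => X₀.nonempty_ringData_strict (hT' T) Smin hord.2
    obtain ⟨hnot, hUT⟩ := hU T hT θ H hres
    obtain ⟨h1, h2'⟩ := T.dvd_twLevel_iff hp (hnot p hpSmin)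
    obtain ⟨⟨hd, ho, hu⟩, hun⟩ := Lifting.datum_strict_unipotent H X.p_mem T.mem_badPrimes_self
      (fun _ h h' => T.mem_badPrimes_of_dvd h h') h33 h34 hp2
      ⟨h1.2 hpB, fun h => hp.ne_one (Nat.isUnit_iff.1 (hB p (by rw [← sq]; exact h2' h)))⟩
      X₀.detIsCyclotomic hord.2.isOrdinaryAt (not_isPeuKummer_of_not_finite X₀ (hBp hpB)) hres
      Smin hUT
    exact ⟨⟨hd, ho, fun q hq hqT =>
      hu q hq fun h => hqT (T.badPrimes_subset hpSmin hBSmin h)⟩, hun⟩
  · -- flat at `p`
    have hflat : ∀ {r : ℕ} (T : X.TWTuple r), (∀ j, (T.q j : ℕ) ∉ S) →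
        ∀ (θ : CuspForm.heckeAlgebra T.twLevel 2 (↑T.badPrimes : Set ℕ) →+* ResidueField O)
          (H : CuspForm.HeckeGaloisRepDatum T.twLevel (↑T.badPrimes : Set ℕ) O θ
            (CuspForm.heckeLocal T.twLevel (↑T.badPrimes : Set ℕ) O θ)),
          H.ρ.residual.IsEquiv (X₀.rhobar.baseChangeAlong (ResidueField.map
            (algebraMap O (CuspForm.heckeLocal T.twLevel (↑T.badPrimes : Set ℕ) O θ)))) →
          GaloisRep.flatCondition O p T.badPrimes H.ρ ∧
            ∀ q ∈ Smin, q.Prime → q ≠ p → H.ρ.IsUnipotentOnInertiaAt q := by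
      intro r T hT θ H hres
      obtain ⟨hnot, hUT⟩ := hU T hT θ H hres
      exact Lifting.datum_flat_unipotent H X.p_mem T.mem_badPrimes_self
        (fun _ h h' => T.mem_badPrimes_of_dvd h h') h32 h34 hp2
        (fun h => hpB ((T.dvd_twLevel_iff hp (hnot p hpSmin)).1.1 h)) Smin hUT
    refine AvoidSetup.false_of_setup hlev h34 h35 h36 hW hbase hbot hv₀ hζ hv X₀.rhobar hρ
      X₀.detIsCyclotomic X₀.charpoly_split b helem
      (fun q hq P hP σ hσ => rbOf_inertia_of_isExceptional X₀ b (hE q hq) hP hσ) hEscal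
      S Smin (Finset.mem_union_left _ hpSmin) (hBSmin.trans Finset.subset_union_left)
      Finset.subset_union_right hESmin (fun T => GaloisRep.flatCondition O p T)
      (fun T A _ _ _ ρ h => h.1) (fun T A _ _ _ ρ h => h.2.2)
      (fun T A B _ _ _ _ _ _ φ hφ ρ hsurj h =>
        ⟨TWAssembly.detIsCyclotomic_baseChange _ hφ h.1,
          TWAssembly.isFlatAt_baseChange _ hφ hsurj h.2.1,
          fun q hq hqT => TWAssembly.isUnramifiedAt_baseChange _ hφ (h.2.2 q hq hqT)⟩)
      (FlatBound.flatConds p (rbOf X₀.rhobar b))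
      (fun T DQ V hV d q hq P hP =>
        FlatBound.flatConds_mem b Smin hSminP hram T DQ V hV d q hq P hP)
      (hbound _ (fun q _ Y _ => FlatBound.cob_mem_flatConds (FlatBound.contRep_rbOf b) Y)
        fun q _ => FlatBound.finrank_flatConds_le (padicPlace_liesOverPrime _) q.2 hp hp2 hpk h2
          (FlatBound.contRep_rbOf b) (FlatBound.cycloDet_rbOf b X₀.detIsCyclotomic))
      (fun T hT θ H hres => ?_)
      fun T hT θ H hres => X₀.nonempty_ringData_flat (hT' T) Smin H.ρ _ hres
        (hflat T hT θ H hres).1.2.1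
    obtain ⟨⟨hd, hf, hu⟩, hun⟩ := hflat T hT θ H hres
    exact ⟨⟨hd, hf, fun q hq hqT =>
      hu q hq fun h => hqT (T.badPrimes_subset hpSmin hBSmin h)⟩, hun⟩

/-- **The exceptional primes are removed.** -/
theorem removeExceptional (hlev : LevelTheorems) (hstart : StartExists)
    (h32 : Lifting.FlatAtGoodLevel) (h33 : Lifting.OrdinaryAtLevel)
    (h34 : Lifting.UnipotentAtSemistable) (h35 : ConductorLevel.NewformSteinberg)
    (h36 : ConductorLevel.NewformCarayol) (W : WeierstrassCurve ℤ) (p : ℕ) [Fact p.Prime]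
    (hdual : DualityInputs p) (hΔ : W.Δ ≠ 0) (hW : W.IsSemistableModel) (hp2 : p ≠ 2) :
    RemoveExceptional W p := by
  intro hirr B Q hB hBram hBp hQ hmod
  by_contra hnot
  obtain ⟨D⟩ := hstart W p hΔ hW hp2 hirr B Q hB hQ hmod
    (max 1 (Q.sup fun q => (q - 1).factorization p))
  let := D.commRing
  have := D.isDomain
  have := D.isDVR
  have := D.isAdicComplete
  have := D.finiteResidue
  have := D.charZero
  let := D.algebra
  exact false_of_residualSetup hlev hdual h32 h33 h34 h35 h36 D.X D.setup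
    D.isResidual D.witness D.base (fun h => hnot (D.bottom h)) (by rw [D.B_eq]; exact hB)
    (by rw [D.B_eq]; exact hBram)
    (by rw [D.B_eq]; exact hBp) (fun q hq => (hQ q (D.E_eq ▸ hq)).1) (le_max_left _ _) D.hζ
    fun q hq => (Finset.le_sup (f := fun q => (q - 1).factorization p) (D.E_eq ▸ hq)).trans
      (le_max_right _ _)

end Fermat.Agent.LevelLowering.Avoid
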